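/-
S33 programme, A-half, piece (S2)/(4a) of helper16's split (report 1307): the quotient package in
TENSOR form.  `Λ_𝔭` is literally `(T ⧸ 𝔭) ⊗[T] V` with `f.baseChange (T ⧸ 𝔭)`.

* `mA 𝔭 a ha : (T ⧸ 𝔭) ⊗[T] V →ₗ[T] V`, `[t] ⊗ v ↦ (t * a) • v`  (for `𝔭 * a = 0`);
* `mA_tmul`, `mA_baseChange`, `range_mA`, `mA_injective`, `baseChange_eq_zero_iff`,
  `eq_zero_of_forall_witness`;
* instances/lemmas on `B := T ⧸ 𝔭` (local, finite over the base, `p ∈ 𝔪_B`).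

Imports Alg16/MinPrimes (Mathlib only) for `IsAnnWitness`.
-/
import Fermat.Agent.S33P.Alg16.MinPrimes

set_option autoImplicit false

noncomputable section

namespace Fermat.Agent.S33P.Quot64

open TensorProduct Fermat.Agent.S33P.Alg16.MinPrimes

variable {T : Type*} [CommRing T] {V : Type*} [AddCommGroup V] [Module T V] (𝔭 : Ideal T) (a : T)

/-! ### elements of `(T ⧸ 𝔭) ⊗[T] V` -/

/-- Every element of `(T ⧸ 𝔭) ⊗[T] V` is of the form `1 ⊗ v`. -/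
theorem exists_one_tmul (x : (T ⧸ 𝔭) ⊗[T] V) : ∃ v : V, x = (1 : T ⧸ 𝔭) ⊗ₜ[T] v := by
  induction x using TensorProduct.induction_on with
  | zero => exact ⟨0, (TensorProduct.tmul_zero V (1 : T ⧸ 𝔭)).symm⟩
  | tmul c v =>
    obtain ⟨t, rfl⟩ := Ideal.Quotient.mk_surjective c
    refine ⟨t • v, ?_⟩
    rw [TensorProduct.tmul_smul, TensorProduct.smul_tmul', Algebra.smul_def, mul_one,
      Ideal.Quotient.algebraMap_eq]
  | add x y hx hy =>
    obtain ⟨v, rfl⟩ := hx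
    obtain ⟨w, rfl⟩ := hy
    exact ⟨v + w, (TensorProduct.tmul_add _ _ _).symm⟩

theorem mk_tmul_eq (t : T) (v : V) :
    (Ideal.Quotient.mk 𝔭 t) ⊗ₜ[T] v = (1 : T ⧸ 𝔭) ⊗ₜ[T] (t • v) := by
  rw [TensorProduct.tmul_smul, TensorProduct.smul_tmul', Algebra.smul_def, mul_one,
    Ideal.Quotient.algebraMap_eq]

/-- `1 ⊗ v = 0` for `v ∈ 𝔭 V`. -/
theorem one_tmul_eq_zero_of_mem {v : V} (hv : v ∈ 𝔭 • (⊤ : Submodule T V)) :
    (1 : T ⧸ 𝔭) ⊗ₜ[T] v = 0 := by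
  refine Submodule.smul_induction_on hv (fun r hr w _ => ?_) (fun y z hy hz => ?_)
  · rw [← mk_tmul_eq, Ideal.Quotient.eq_zero_iff_mem.mpr hr, TensorProduct.zero_tmul]
  · rw [TensorProduct.tmul_add, hy, hz, add_zero]

/-! ### the map `mA` -/

/-- **`mA`**: the `T`-linear map `(T ⧸ 𝔭) ⊗[T] V → V`, `[t] ⊗ v ↦ (t * a) • v`, defined when
`𝔭 * a = 0`. -/
def mA (ha : ∀ x ∈ 𝔭, x * a = 0) : (T ⧸ 𝔭) ⊗[T] V →ₗ[T] V :=
  TensorProduct.lift
    (Submodule.liftQ 𝔭 (LinearMap.toSpanSingleton T (Module.End T V) (a • LinearMap.id))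
      (fun x hx => by
        rw [LinearMap.mem_ker, LinearMap.toSpanSingleton_apply, smul_smul, ha x hx, zero_smul]))

theorem mA_tmul (ha : ∀ x ∈ 𝔭, x * a = 0) (t : T) (v : V) :
    mA 𝔭 a ha (Ideal.Quotient.mk 𝔭 t ⊗ₜ[T] v) = (t * a) • v := by
  rw [mA, TensorProduct.lift.tmul]
  change (LinearMap.toSpanSingleton T (Module.End T V) (a • LinearMap.id) t) v = _
  rw [LinearMap.toSpanSingleton_apply, smul_smul, LinearMap.smul_apply, LinearMap.id_apply]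

theorem mA_one_tmul (ha : ∀ x ∈ 𝔭, x * a = 0) (v : V) :
    mA 𝔭 a ha ((1 : T ⧸ 𝔭) ⊗ₜ[T] v) = a • v := by
  have := mA_tmul 𝔭 a ha 1 v
  rwa [map_one, one_mul] at this

theorem mA_baseChange (ha : ∀ x ∈ 𝔭, x * a = 0) (f : Module.End T V) (x : (T ⧸ 𝔭) ⊗[T] V) :
    mA 𝔭 a ha (f.baseChange (T ⧸ 𝔭) x) = f (mA 𝔭 a ha x) := by
  obtain ⟨v, rfl⟩ := exists_one_tmul 𝔭 x
  rw [LinearMap.baseChange_tmul, mA_one_tmul, mA_one_tmul, map_smul]

theorem range_mA (ha : ∀ x ∈ 𝔭, x * a = 0) (y : V) :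
    y ∈ LinearMap.range (mA (V := V) 𝔭 a ha) ↔ ∃ v : V, y = a • v := by
  constructor
  · rintro ⟨x, rfl⟩
    obtain ⟨v, rfl⟩ := exists_one_tmul 𝔭 x
    exact ⟨v, mA_one_tmul 𝔭 a ha v⟩
  · rintro ⟨v, rfl⟩
    exact ⟨(1 : T ⧸ 𝔭) ⊗ₜ[T] v, mA_one_tmul 𝔭 a ha v⟩

/-- `a • v = 0 ↔ v ∈ 𝔭 V` for `V` free and `Ann a = 𝔭`. -/
theorem smul_eq_zero_iff_mem [Module.Free T V] (ha : IsAnnWitness 𝔭 a) (v : V) :
    a • v = 0 ↔ v ∈ 𝔭 • (⊤ : Submodule T V) := by
  let b := Module.Free.chooseBasis T V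
  have h1 : a • v = 0 ↔ ∀ i, b.repr v i ∈ 𝔭 := by
    rw [← b.repr.map_eq_zero_iff, map_smul, Finsupp.ext_iff]
    refine forall_congr' fun i => ?_
    rw [Finsupp.smul_apply, Finsupp.zero_apply, smul_eq_mul, mul_comm]
    exact ha.2 _
  rw [h1]
  constructor
  · intro h
    rw [← b.linearCombination_repr v, Finsupp.linearCombination_apply]
    exact Submodule.sum_mem _ fun i _ => Submodule.smul_mem_smul (h i) Submodule.mem_top
  · intro h i
    refine Submodule.smul_induction_on h (fun r hr w _ => ?_) (fun y z hy hz => ?_)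
    · rw [map_smul, Finsupp.smul_apply, smul_eq_mul]
      exact Ideal.mul_mem_right _ _ hr
    · rw [map_add, Finsupp.add_apply]
      exact Ideal.add_mem _ hy hz

/-- **`mA` is injective** for `V` free and `Ann a = 𝔭`: `Λ_𝔭 ≅ a V`. -/
theorem mA_injective [Module.Free T V] (ha : IsAnnWitness 𝔭 a) :
    Function.Injective (mA (V := V) 𝔭 a (fun _ hx => ha.mul_eq_zero hx)) := by
  rw [← LinearMap.ker_eq_bot, LinearMap.ker_eq_bot']
  intro x hx
  obtain ⟨v, rfl⟩ := exists_one_tmul 𝔭 x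
  rw [mA_one_tmul] at hx
  exact one_tmul_eq_zero_of_mem 𝔭 ((smul_eq_zero_iff_mem 𝔭 a ha v).mp hx)

/-- An endomorphism vanishes on `Λ_𝔭` iff it is killed by `a`. -/
theorem baseChange_eq_zero_iff [Module.Free T V] (ha : IsAnnWitness 𝔭 a) (f : Module.End T V) :
    f.baseChange (T ⧸ 𝔭) = 0 ↔ ∀ v : V, a • f v = 0 := by
  constructor
  · intro h v
    have h1 := mA_baseChange 𝔭 a (fun _ hx => ha.mul_eq_zero hx) f ((1 : T ⧸ 𝔭) ⊗ₜ[T] v)
    rw [h, LinearMap.zero_apply, map_zero, mA_one_tmul] at h1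
    rw [← map_smul]
    exact h1.symm
  · intro h
    refine LinearMap.ext fun x => ?_
    obtain ⟨v, rfl⟩ := exists_one_tmul 𝔭 x
    rw [LinearMap.zero_apply, LinearMap.baseChange_tmul]
    apply mA_injective 𝔭 a ha
    rw [mA_one_tmul, map_zero]
    exact h v

/-- An endomorphism of a free module over a reduced ring which is killed by annihilator
witnesses of all minimal primes is zero. -/
theorem eq_zero_of_forall_witness [IsReduced T] [Module.Free T V] (f : Module.End T V)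
    (h : ∀ 𝔭 ∈ minimalPrimes T, ∃ a, IsAnnWitness 𝔭 a ∧ ∀ v, a • f v = 0) : f = 0 := by
  refine LinearMap.ext fun v => ?_
  rw [LinearMap.zero_apply]
  let b := Module.Free.chooseBasis T V
  apply b.repr.injective
  rw [map_zero]
  ext i
  rw [Finsupp.zero_apply]
  apply eq_zero_of_forall_mul_eq_zero
  intro 𝔭 h𝔭
  obtain ⟨a, ha, hav⟩ := h 𝔭 h𝔭
  refine ⟨a, ha, ?_⟩
  have h1 := congrArg (fun w => b.repr w i) (hav v)
  simp only [map_smul, Finsupp.smul_apply, smul_eq_mul, map_zero, Finsupp.zero_apply] at h1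
  rw [mul_comm]
  exact h1

/-- Variant: it suffices that `f.baseChange (T ⧸ 𝔭) = 0` for every minimal prime. -/
theorem eq_zero_of_forall_baseChange [IsNoetherianRing T] [IsReduced T] [Module.Free T V]
    (f : Module.End T V) (h : ∀ 𝔭 ∈ minimalPrimes T, f.baseChange (T ⧸ 𝔭) = 0) : f = 0 := by
  apply eq_zero_of_forall_witness
  intro 𝔭 h𝔭
  obtain ⟨a, ha⟩ := exists_ann_eq h𝔭
  exact ⟨a, ha, (baseChange_eq_zero_iff 𝔭 a ha f).mp (h 𝔭 h𝔭)⟩

/-! ### the ring `B := T ⧸ 𝔭` -/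

section Ring

theorem isLocalRing_quot [IsLocalRing T] (h : 𝔭 ≠ ⊤) : IsLocalRing (T ⧸ 𝔭) :=
  haveI : Nontrivial (T ⧸ 𝔭) := Ideal.Quotient.nontrivial_iff.mpr h
  IsLocalRing.of_surjective' (Ideal.Quotient.mk 𝔭) Ideal.Quotient.mk_surjective

instance isLocalRing_quot_prime [IsLocalRing T] [h𝔭 : 𝔭.IsPrime] : IsLocalRing (T ⧸ 𝔭) :=
  isLocalRing_quot 𝔭 h𝔭.ne_top

theorem mk_mem_maximalIdeal_iff [IsLocalRing T] [𝔭.IsPrime] (t : T) :
    Ideal.Quotient.mk 𝔭 t ∈ IsLocalRing.maximalIdeal (T ⧸ 𝔭) ↔ t ∈ IsLocalRing.maximalIdeal T := by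
  have : IsLocalHom (Ideal.Quotient.mk 𝔭) :=
    IsLocalHom.of_surjective _ Ideal.Quotient.mk_surjective
  rw [IsLocalRing.mem_maximalIdeal, IsLocalRing.mem_maximalIdeal, mem_nonunits_iff,
    mem_nonunits_iff, isUnit_map_iff]

theorem maximalIdeal_quot_eq_map [IsLocalRing T] [𝔭.IsPrime] :
    IsLocalRing.maximalIdeal (T ⧸ 𝔭) = (IsLocalRing.maximalIdeal T).map (Ideal.Quotient.mk 𝔭) := by
  ext c
  obtain ⟨t, rfl⟩ := Ideal.Quotient.mk_surjective c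
  rw [mk_mem_maximalIdeal_iff]
  constructor
  · exact fun h => Ideal.mem_map_of_mem _ h
  · intro h
    rw [Ideal.mem_map_iff_of_surjective _ Ideal.Quotient.mk_surjective] at h
    obtain ⟨t', ht', h⟩ := h
    rw [Ideal.Quotient.eq] at h
    have h1 : t' - t ∈ IsLocalRing.maximalIdeal T :=
      IsLocalRing.le_maximalIdeal (Ideal.IsPrime.ne_top ‹_›) h
    have := Ideal.sub_mem _ ht' h1
    rwa [sub_sub_cancel] at this

theorem natCast_mem_maximalIdeal_quot [IsLocalRing T] [𝔭.IsPrime] {p : ℕ}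
    (hpT : (p : T) ∈ IsLocalRing.maximalIdeal T) :
    (p : T ⧸ 𝔭) ∈ IsLocalRing.maximalIdeal (T ⧸ 𝔭) := by
  have := (mk_mem_maximalIdeal_iff 𝔭 (p : T)).mpr hpT
  rwa [map_natCast] at this

theorem isUnit_mk_sub_one [IsLocalRing T] [𝔭.IsPrime] {α : T} (h : IsUnit (α - 1)) :
    IsUnit (Ideal.Quotient.mk 𝔭 α - 1) := by
  have := h.map (Ideal.Quotient.mk 𝔭)
  rwa [map_sub, map_one] at this

/-- `T ⧸ 𝔭` is finite over any base over which `T` is finite. -/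
theorem finite_quot (Z : Type*) [CommRing Z] [Algebra Z T] [Module.Finite Z T] :
    Module.Finite Z (T ⧸ 𝔭) := inferInstance

theorem algebraMap_quot_apply (Z : Type*) [CommRing Z] [Algebra Z T] (z : Z) :
    algebraMap Z (T ⧸ 𝔭) z = Ideal.Quotient.mk 𝔭 (algebraMap Z T z) := rfl

end Ring

end Fermat.Agent.S33P.Quot64
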